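import Fermat.Agent.Root.SummaryChebotarev
import Fermat.Agent.Root.SummaryGaloisGL2
import Fermat.Agent.Root.LFunctionForm
import Mathlib.Data.ZMod.QuotientRing

/-!
# The distribution of Frobenius in the level `N` representation of an elliptic curve

A finite change does not alter a Dirichlet density. The reductions of the `p`-adic representations,
`p ∣ N`, assemble into a homomorphism to `GL₂(ℤ/N)` with trace `a_q` and determinant `q` at
Frobenius elements, onto when Galois induces every automorphism of the `N`-torsion.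
-/

set_option autoImplicit false
set_option linter.unusedSectionVars false
set_option linter.style.haveILetI false

noncomputable section

open NumberField IsDedekindDomain Filter Topology WeierstrassCurve Matrix FA.Frob FA.RT.Tate
open scoped WeierstrassCurve.Affine

namespace FA.TraceDist

local notation "Qb" => AlgebraicClosure ℚ
local notation "GQ" => AlgebraicClosure ℚ ≃ₐ[ℚ] AlgebraicClosure ℚ
local notation "M2" => Matrix (Fin 2) (Fin 2)

/-! ### Finite changes -/

/-- **A finite change does not alter the density.** -/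
theorem hasDirichletDensity_congr {S T : Set (HeightOneSpectrum (𝓞 ℚ))} {δ : ℝ}
    (h : S.HasDirichletDensity δ) {D : Set (HeightOneSpectrum (𝓞 ℚ))} (hD : D.Finite)
    (hST : ∀ v ∉ D, (v ∈ S ↔ v ∈ T)) : T.HasDirichletDensity δ :=
  FA.Chebotarev.hasDirichletDensity_congr
    (hD.subset fun v hv => by by_contra hn; exact hv.2 ((hST v hn).mpr hv.1))
    (hD.subset fun v hv => by by_contra hn; exact hv.2 ((hST v hn).mp hv.1)) h

/-- A set of primes of positive density has infinitely many norms. -/
theorem infinite_of_density {P : ℕ → Prop} {δ : ℝ} (hδ : δ ≠ 0)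
    (h : Set.HasDirichletDensity
      {v : HeightOneSpectrum (𝓞 ℚ) | P (Ideal.absNorm v.asIdeal)} δ) :
    {q : ℕ | q.Prime ∧ P q}.Infinite := by
  intro hfin
  refine hδ (tendsto_nhds_unique h (hasDirichletDensity_congr
    NumberField.Set.hasDirichletDensity_empty (D := {v | P (Ideal.absNorm v.asIdeal)}) ?_
    fun v hv => iff_of_false (Set.notMem_empty v) hv))
  have hI := Set.Finite.biUnion hfin fun q _ => Ideal.finite_setOfPred_absNorm_eq (S := 𝓞 ℚ) q
  refine (hI.preimage (f := fun v : HeightOneSpectrum (𝓞 ℚ) => v.asIdeal)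
    (fun a _ b _ e => HeightOneSpectrum.ext e)).subset fun v hv => ?_
  exact Set.mem_biUnion ⟨FA.Chebotarev.absNorm_prime v, hv⟩ rfl

/-- Only finitely many primes divide a nonzero integer. -/
theorem finite_dvd {M : ℤ} (hM : M ≠ 0) :
    {v : HeightOneSpectrum (𝓞 ℚ) | (Ideal.absNorm v.asIdeal : ℤ) ∣ M}.Finite := by
  have hI := Set.Finite.biUnion (M.natAbs.divisors.finite_toSet)
    fun q _ => Ideal.finite_setOfPred_absNorm_eq (S := 𝓞 ℚ) q
  refine (hI.preimage (f := fun v : HeightOneSpectrum (𝓞 ℚ) => v.asIdeal)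
    (fun a _ b _ e => HeightOneSpectrum.ext e)).subset fun v hv => ?_
  exact Set.mem_biUnion (Finset.mem_coe.mpr (Nat.mem_divisors.mpr
    ⟨Int.natCast_dvd.mp hv, Int.natAbs_ne_zero.mpr hM⟩)) rfl

/-! ### The representation of level `N` -/

variable {W : WeierstrassCurve ℤ} [(ratCurve W).IsElliptic] {N : ℕ} [NeZero N]

theorem fact_prime_of_mem (p : N.primeFactors) : Fact (p : ℕ).Prime :=
  ⟨Nat.prime_of_mem_primeFactors p.2⟩

/-- A parametrisation of the torsion at each prime dividing `N`. -/
def basisAt (W : WeierstrassCurve ℤ) [(ratCurve W).IsElliptic] (p : N.primeFactors) :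
    haveI := fact_prime_of_mem p
    TateBasis (p : ℕ) W :=
  haveI := fact_prime_of_mem p
  (exists_tateBasis (p := (p : ℕ)) (W := W)).some

/-- The reduction at the prime `p` dividing `N`. -/
def repAt (W : WeierstrassCurve ℤ) [(ratCurve W).IsElliptic] (p : N.primeFactors) :
    GQ →* M2 (ZMod ((p : ℕ) ^ N.factorization p)) :=
  haveI := fact_prime_of_mem p
  ((PadicInt.toZModPow (p := (p : ℕ)) (N.factorization p)).mapMatrix :
    M2 ℤ_[p] →+* _).toMonoidHom.comp (basisAt W p).rep

/-- The representation of level `N`. -/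
def repLevel (W : WeierstrassCurve ℤ) [(ratCurve W).IsElliptic] (N : ℕ) [NeZero N] :
    GQ →* M2 (ZMod N) where
  toFun σ := Matrix.of fun i j => (ZMod.equivPi N (NeZero.ne N)).symm fun p => repAt W p σ i j
  map_one' := by
    ext i j
    apply (ZMod.equivPi N (NeZero.ne N)).injective
    funext p
    rcases eq_or_ne i j with rfl | hij <;> simp [*]
  map_mul' σ τ := by
    ext i j
    apply (ZMod.equivPi N (NeZero.ne N)).injective
    funext p
    simp [Matrix.mul_apply, Fin.sum_univ_two]

theorem equivPi_trace (σ : GQ) (p : N.primeFactors) :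
    ZMod.equivPi N (NeZero.ne N) (repLevel W N σ).trace p = (repAt W p σ).trace := by
  simp [repLevel, trace_fin_two]

theorem equivPi_det (σ : GQ) (p : N.primeFactors) :
    ZMod.equivPi N (NeZero.ne N) (repLevel W N σ).det p = (repAt W p σ).det := by
  simp [repLevel, det_fin_two]

/-- The representation as invertible matrices. -/
def glLevel (W : WeierstrassCurve ℤ) [(ratCurve W).IsElliptic] (N : ℕ) [NeZero N] :
    GQ →* GL (Fin 2) (ZMod N) := (repLevel W N).toHomUnits

/-- Trace and determinant at Frobenius elements. -/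
theorem repLevel_frobenius {q : ℕ} (hq : q.Prime) (hqN : ¬ q ∣ N) (hgood : W.IsGoodPrimeFor q)
    {A : ValuationSubring Qb} (hA : A.LiesOverPrime q) {σ : GQ} (hσ : A.IsFrobeniusAt σ q) :
    (repLevel W N σ).trace = (W.apOfModel q : ZMod N) ∧ (repLevel W N σ).det = (q : ZMod N) := by
  constructor <;> apply (ZMod.equivPi N (NeZero.ne N)).injective <;> funext p
  all_goals
    haveI := fact_prime_of_mem p
    have hqp : q ≠ (p : ℕ) := fun e => hqN (e ▸ Nat.dvd_of_mem_primeFactors p.2)
    obtain ⟨htr, hdet⟩ := (basisAt W p).rep_frobenius hq hA hqp hgood hσ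
  · rw [equivPi_trace, map_intCast, Pi.intCast_apply]
    show ((basisAt W p).rep σ |>.map (PadicInt.toZModPow (N.factorization p))).trace = _
    rw [trace_fin_two, Matrix.map_apply, Matrix.map_apply, ← map_add, ← trace_fin_two, htr,
      map_intCast]
  · rw [equivPi_det, map_natCast, Pi.natCast_apply]
    show ((PadicInt.toZModPow (N.factorization p)).mapMatrix ((basisAt W p).rep σ)).det = _
    rw [← RingHom.map_det, hdet, map_natCast]

/-- The kernel is what fixes the torsion. -/
theorem repLevel_eq_one_iff (σ : GQ) :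
    repLevel W N σ = 1 ↔ ∀ x : Pts W, N • x = 0 → σ • x = x := by
  constructor
  · intro h x hx
    have hp : ∀ p : N.primeFactors, ∀ y : Pts W, (p : ℕ) ^ N.factorization p • y = 0 →
        σ • y = y := fun p y hy => by
      haveI := fact_prime_of_mem p
      have h' : repAt W p σ = 1 := Matrix.ext fun i j => by
        have e := congrArg (fun M : M2 (ZMod N) => ZMod.equivPi N (NeZero.ne N) (M i j) p) h
        rcases eq_or_ne i j with rfl | hij <;> simpa [repLevel, *] using e
      obtain ⟨w, rfl⟩ := (basisAt W p).surj _ y hy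
      rw [(basisAt W p).rep_spec, (basisAt W p).phi_eq_iff]
      intro i
      rw [RingHom.map_mulVec]
      show ((repAt W p σ) *ᵥ _) i = _
      rw [h', one_mulVec, Function.comp_apply]
    suffices key : ∀ D : ℕ, D ∣ N → ∀ y : Pts W, D • y = 0 → σ • y = y from key N dvd_rfl x hx
    intro D
    induction D using Nat.recOnPosPrimePosCoprime with
    | prime_pow p n hl hn =>
      intro hd y hy
      have hmem : p ∈ N.primeFactors := Nat.mem_primeFactors.mpr
        ⟨hl, (dvd_pow_self p (Nat.pos_iff_ne_zero.mp hn)).trans hd, NeZero.ne N⟩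
      refine hp ⟨p, hmem⟩ y ?_
      obtain ⟨k, hk⟩ := Nat.exists_eq_add_of_le
        ((hl.pow_dvd_iff_le_factorization (NeZero.ne N)).mp hd)
      show p ^ N.factorization p • y = 0
      rw [hk, pow_add, mul_comm, mul_nsmul', hy, nsmul_zero]
    | zero => exact fun hd => absurd (Nat.eq_zero_of_zero_dvd hd) (NeZero.ne N)
    | one => intro _ y hy; rw [one_nsmul] at hy; rw [hy]; exact FA.Local.gal_smul_zero _ σ
    | coprime a b _ _ hab iha ihb =>
      intro hd y hy
      have h1 : σ • (b • y) = b • y :=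
        iha ((dvd_mul_right a b).trans hd) _ (by rw [← mul_nsmul', hy])
      have h2 : σ • (a • y) = a • y :=
        ihb ((dvd_mul_left b a).trans hd) _ (by rw [← mul_nsmul', mul_comm, hy])
      obtain ⟨u, v, huv⟩ := Int.isCoprime_iff_nat_coprime.mpr
        (show Nat.Coprime (a : ℤ).natAbs (b : ℤ).natAbs by simpa using hab)
      have hye : y = u • (a • y) + v • (b • y) := by
        rw [← natCast_zsmul y a, ← natCast_zsmul y b, smul_smul, smul_smul, ← add_zsmul, huv,
          one_zsmul]
      calc σ • y = σ • (u • (a • y) + v • (b • y)) := by rw [← hye]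
        _ = u • (σ • (a • y)) + v • (σ • (b • y)) := by
            rw [FA.Local.gal_smul_add, FA.RT.Tate.gal_smul_zsmul (W := W),
              FA.RT.Tate.gal_smul_zsmul (W := W)]
        _ = y := by rw [h1, h2, ← hye]
  · intro h
    ext i j
    apply (ZMod.equivPi N (NeZero.ne N)).injective
    funext p
    haveI := fact_prime_of_mem p
    have h' : repAt W p σ = 1 := (basisAt W p).rep_congr_one fun y hy => h y (by
      obtain ⟨k, hk⟩ := Nat.ordProj_dvd N (p : ℕ)
      rw [hk, mul_comm, mul_nsmul', hy, nsmul_zero])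
    rcases eq_or_ne i j with rfl | hij <;> simp [repLevel, *]

theorem isOpen_ker_glLevel : IsOpen ((glLevel W N).ker : Set GQ) := by
  obtain ⟨L, hL, h⟩ := FA.EC.galoisFactorsThroughFiniteLevel (ratCurve W) (NeZero.ne N)
  refine Subgroup.isOpen_mono (H₁ := L.fixingSubgroup) (fun σ hσ => ?_)
    (IntermediateField.fixingSubgroup_isOpen L)
  refine Units.ext ((repLevel_eq_one_iff σ).mpr fun x hx => ?_)
  exact congrArg Subtype.val (LinearMap.congr_fun
    (h σ ((IntermediateField.mem_fixingSubgroup_iff _ _).mp hσ))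
    ⟨x, (Submodule.mem_torsionBy_iff _ _).mpr (by rw [natCast_zsmul]; exact hx)⟩)

/-- Onto when Galois induces every automorphism of the torsion, by counting. -/
theorem glLevel_surjective
    (hsurj : ∀ φ : Submodule.torsionBy ℤ ((ratCurve W)⁄Qb).Point (N : ℤ) ≃+
      Submodule.torsionBy ℤ ((ratCurve W)⁄Qb).Point (N : ℤ),
      ∃ σ : GQ, ∀ x, σ • x.1 = (φ x).1) :
    Function.Surjective (glLevel W N) := by
  obtain ⟨e⟩ := FA.PadicImage.nonempty_torsion_equiv W (N := N)
  let T := Submodule.torsionBy ℤ ((ratCurve W)⁄Qb).Point (N : ℤ)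
  let u : GQ →* (Module.End (ZMod N) T)ˣ :=
    (Affine.Point.galoisRepModuleEnd (K := Qb) ℚ (ratCurve W).toAffine N).toHomUnits
  let c : (Module.End (ZMod N) T)ˣ ≃* GL (Fin 2) (ZMod N) :=
    (LinearMap.GeneralLinearGroup.congrLinearEquiv e.symm).trans
      Matrix.GeneralLinearGroup.toLin.symm
  have hu : Function.Surjective u := fun g => by
    obtain ⟨σ, hσ⟩ := hsurj (LinearMap.GeneralLinearGroup.generalLinearEquiv _ _ g).toAddEquiv
    exact ⟨σ, Units.ext (LinearMap.ext fun x => Subtype.ext (hσ x))⟩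
  have hker : (glLevel W N).ker = u.ker := by
    ext σ
    rw [MonoidHom.mem_ker, MonoidHom.mem_ker, ← Units.val_inj, ← Units.val_inj]
    show repLevel W N σ = 1 ↔ _
    rw [repLevel_eq_one_iff]
    refine ⟨fun h => LinearMap.ext fun x => Subtype.ext (h x.1 ?_), fun h x hx => ?_⟩
    · rw [← natCast_zsmul]; exact (Submodule.mem_torsionBy_iff _ _).mp x.2
    · exact congrArg Subtype.val (LinearMap.congr_fun h
        (⟨x, (Submodule.mem_torsionBy_iff _ _).mpr (by rw [natCast_zsmul]; exact hx)⟩ : T))
  haveI : Finite (GL (Fin 2) (ZMod N)) := inferInstance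
  rw [← MonoidHom.range_eq_top]
  refine Subgroup.eq_top_of_card_eq _ ?_
  rw [← Subgroup.index_ker, hker, Subgroup.index_ker, MonoidHom.range_eq_top.mpr hu,
    Subgroup.card_top]
  exact Nat.card_congr c.toEquiv

/-- **The distribution of trace and determinant** at level `N`. -/
theorem hasDirichletDensity_level (hΔ : W.Δ ≠ 0) (S : Set (ZMod N × ZMod N))
    (hsurj : ∀ φ : Submodule.torsionBy ℤ ((ratCurve W)⁄Qb).Point (N : ℤ) ≃+
      Submodule.torsionBy ℤ ((ratCurve W)⁄Qb).Point (N : ℤ),
      ∃ σ : GQ, ∀ x, σ • x.1 = (φ x).1) :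
    Set.HasDirichletDensity {v : HeightOneSpectrum (𝓞 ℚ) |
      ((W.apOfModel (Ideal.absNorm v.asIdeal) : ZMod N), (Ideal.absNorm v.asIdeal : ZMod N)) ∈ S}
      ((Nat.card {M : GL (Fin 2) (ZMod N) // (M.val.trace, M.val.det) ∈ S} : ℝ) /
        Nat.card (GL (Fin 2) (ZMod N))) := by
  classical
  haveI := Fintype.ofFinite (GL (Fin 2) (ZMod N))
  set X : Set (GL (Fin 2) (ZMod N)) := {M | (M.val.trace, M.val.det) ∈ S}
  have h := FA.Chebotarev.hasDirichletDensity_frobSet (glLevel W N) (glLevel_surjective hsurj)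
    isOpen_ker_glLevel (X := X) fun g hg x => by
      show ((x * g * x⁻¹).val.trace, (x * g * x⁻¹).val.det) ∈ S
      rw [Units.val_mul, Units.val_mul, trace_units_conj, det_units_conj]
      exact hg
  rw [← Nat.card_eq_fintype_card] at h
  refine hasDirichletDensity_congr h (finite_dvd (M := N * W.Δ)
    (mul_ne_zero (Nat.cast_ne_zero.mpr (NeZero.ne N)) hΔ)) fun v hv => ?_
  have hq := FA.Chebotarev.absNorm_prime v
  have hgood : W.IsGoodPrimeFor (Ideal.absNorm v.asIdeal) := fun hd => hv (hd.mul_left _)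
  have hqN : ¬ Ideal.absNorm v.asIdeal ∣ N := fun hd =>
    hv ((Int.natCast_dvd_natCast.mpr hd).mul_right _)
  have hfr : ∀ A : ValuationSubring Qb, A.LiesOverPrime (Ideal.absNorm v.asIdeal) →
      ∀ σ : GQ, A.IsFrobeniusAt σ (Ideal.absNorm v.asIdeal) →
        (((glLevel W N σ).val.trace, (glLevel W N σ).val.det) =
          ((W.apOfModel (Ideal.absNorm v.asIdeal) : ZMod N),
            (Ideal.absNorm v.asIdeal : ZMod N))) := fun A hA σ hσ => by
    obtain ⟨ht, hd⟩ := repLevel_frobenius (N := N) hq hqN hgood hA hσ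
    exact Prod.ext ht hd
  constructor
  · intro hm
    obtain ⟨A, hA⟩ := FA.Deform.exists_liesOverPrime hq
    obtain ⟨σ, hσ⟩ := FA.Deform.exists_isFrobeniusAt hq hA
    rw [Set.mem_ofPred_eq, ← hfr A hA σ hσ]
    exact hm A hA σ hσ
  · intro hm A hA σ hσ
    show ((glLevel W N σ).val.trace, (glLevel W N σ).val.det) ∈ S
    rw [hfr A hA σ hσ]
    exact hm

end FA.TraceDist

end
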