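import Mathlib.LinearAlgebra.Matrix.GeneralLinearGroup.Card
import Mathlib.LinearAlgebra.Matrix.Trace
import Mathlib.Algebra.Field.ZMod
import Mathlib.Tactic.LinearCombination
import Mathlib.Tactic.FieldSimp

/-!
# Counting matrices by trace and determinant

Over a field of `l` elements `l² + l (r - 1)` matrices have trace `t` and determinant `d`, with `r`
the number of roots of `X² - t X + d`.  Hence `l² (l - 1)` invertible matrices have trace zero and
`l³ - 2 l` have eigenvalue `1`.
-/

set_option autoImplicit false

noncomputable section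

open Matrix Finset
open scoped Classical

namespace FA.TraceDist

variable {k : Type*} [Field k] [Fintype k]

/-- The pairs with a given product. -/
theorem card_mul_eq (c : k) :
    Nat.card {p : k × k // p.1 * p.2 = c} + 1 =
      Fintype.card k + if c = 0 then Fintype.card k else 0 := by
  have e : {p : k × k // p.1 * p.2 = c} ≃ Σ b : k, {x : k // b * x = c} :=
    { toFun := fun p => ⟨p.1.1, p.1.2, p.2⟩
      invFun := fun s => ⟨(s.1, s.2.1), s.2.2⟩
      left_inv := fun _ => rfl
      right_inv := fun _ => rfl }
  rw [Nat.card_congr e, Nat.card_sigma, ← Finset.sum_erase_add _ _ (mem_univ (0 : k))]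
  have h1 : ∀ b ∈ (univ : Finset k).erase 0, Nat.card {x : k // b * x = c} = 1 := fun b hb => by
    have hb0 := Finset.ne_of_mem_erase hb
    rw [Nat.card_eq_one_iff_unique]
    exact ⟨⟨fun x y => Subtype.ext (mul_left_cancel₀ hb0 (x.2.trans y.2.symm))⟩,
      ⟨⟨c / b, by field_simp⟩⟩⟩
  rw [Finset.sum_congr rfl h1, Finset.sum_const, smul_eq_mul, mul_one,
    Finset.card_erase_of_mem (mem_univ _), Finset.card_univ]
  have hpos : 0 < Fintype.card k := Fintype.card_pos
  split_ifs with hc
  · rw [Nat.card_congr (Equiv.subtypeUnivEquiv fun x => by rw [zero_mul, hc]),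
      Nat.card_eq_fintype_card]
    omega
  · have : IsEmpty {x : k // (0 : k) * x = c} := ⟨fun x => hc (by rw [← x.2, zero_mul])⟩
    rw [Nat.card_eq_zero.mpr (Or.inl this)]
    omega

/-- **The matrices with given trace and determinant.** -/
theorem card_trace_det (t d : k) :
    Nat.card {M : Matrix (Fin 2) (Fin 2) k // M.trace = t ∧ M.det = d} + Fintype.card k =
      Fintype.card k ^ 2 + Fintype.card k * #{a : k | a * a - t * a + d = 0} := by
  have e : {M : Matrix (Fin 2) (Fin 2) k // M.trace = t ∧ M.det = d} ≃
      Σ a : k, {p : k × k // p.1 * p.2 = a * (t - a) - d} :=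
    { toFun := fun M => ⟨M.1 0 0, (M.1 0 1, M.1 1 0), by
        obtain ⟨ht, hd⟩ := M.2
        rw [trace_fin_two] at ht
        rw [det_fin_two] at hd
        linear_combination -hd + M.1 0 0 * ht⟩
      invFun := fun s => ⟨!![s.1, s.2.1.1; s.2.1.2, t - s.1], by simp [trace_fin_two], by
        rw [det_fin_two_of, s.2.2]; ring⟩
      left_inv := fun M => by
        obtain ⟨ht, -⟩ := M.2
        rw [trace_fin_two] at ht
        ext i j
        fin_cases i <;> fin_cases j <;> simp [← ht]
      right_inv := fun s => by simp }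
  rw [Nat.card_congr e, Nat.card_sigma]
  have h : ∑ a : k, (Nat.card {p : k × k // p.1 * p.2 = a * (t - a) - d} + 1) =
      ∑ a : k, (Fintype.card k + if a * (t - a) - d = 0 then Fintype.card k else 0) :=
    Finset.sum_congr rfl fun a _ => card_mul_eq _
  rw [Finset.sum_add_distrib, Finset.sum_add_distrib, Finset.sum_const, Finset.card_univ,
    smul_eq_mul, mul_one, Finset.sum_const, Finset.card_univ, smul_eq_mul, ← Finset.sum_filter,
    Finset.sum_const, smul_eq_mul] at h
  rw [h, Finset.filter_congr fun a _ => (show a * (t - a) - d = 0 ↔ a * a - t * a + d = 0 from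
    ⟨fun h => by linear_combination -h, fun h => by linear_combination -h⟩)]
  ring

/-- Invertible matrices by trace and determinant. -/
def glEquiv (f : k → k) : {M : GL (Fin 2) k // M.val.trace = f M.val.det} ≃
    Σ d : kˣ, {M : Matrix (Fin 2) (Fin 2) k // M.trace = f d ∧ M.det = d} where
  toFun M :=
    ⟨Units.map (Matrix.detMonoidHom : Matrix (Fin 2) (Fin 2) k →* k) M.1, M.1.val, M.2, rfl⟩
  invFun s := ⟨Matrix.GeneralLinearGroup.mkOfDetNeZero s.2.1 (by rw [s.2.2.2]; exact s.1.ne_zero),
    by
      show s.2.1.trace = f s.2.1.det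
      rw [s.2.2.1, s.2.2.2]⟩
  left_inv M := Subtype.ext (Units.ext rfl)
  right_inv s := Sigma.subtype_ext (Units.ext s.2.2.2) rfl

/-- **The invertible matrices of trace zero.** -/
theorem card_trace_zero :
    Nat.card {M : GL (Fin 2) k // M.val.trace = 0} = Fintype.card k ^ 2 * (Fintype.card k - 1) := by
  rw [Nat.card_congr (glEquiv fun _ : k => (0 : k)), Nat.card_sigma]
  have hroots : ∑ d : kˣ, #{a : k | a * a - 0 * a + (d : k) = 0} = Fintype.card k - 1 := by
    rw [← Fintype.card_units (α := k), ← Finset.card_univ (α := kˣ), ← Finset.card_sigma]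
    refine Finset.card_bij' (fun s hs => Units.mk0 s.2 ?_)
      (fun u _ => ⟨Units.mk0 (-((u : k) * u)) (neg_ne_zero.mpr (mul_ne_zero u.ne_zero u.ne_zero)),
        (u : k)⟩) (fun _ _ => mem_univ _) ?_ ?_ ?_
    · intro h
      simp only [mem_sigma, mem_filter, mem_univ, true_and, h] at hs
      exact s.1.ne_zero (by linear_combination hs)
    · intro u _
      rw [Finset.mem_sigma, Finset.mem_filter]
      exact ⟨mem_univ _, mem_univ _, by simp only [Units.val_mk0]; ring⟩
    · rintro ⟨d, a⟩ hs
      simp only [mem_sigma, mem_filter, mem_univ, true_and] at hs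
      simp only [Units.val_mk0, Sigma.mk.injEq, heq_eq_eq, and_true]
      exact Units.ext (by simp only [Units.val_mk0]; linear_combination -hs)
    · intro u _
      exact Units.ext rfl
  have h : ∑ d : kˣ, (Nat.card {M : Matrix (Fin 2) (Fin 2) k // M.trace = 0 ∧ M.det = d} +
      Fintype.card k) = ∑ d : kˣ, (Fintype.card k ^ 2 +
        Fintype.card k * #{a : k | a * a - 0 * a + (d : k) = 0}) :=
    Finset.sum_congr rfl fun d _ => card_trace_det 0 (d : k)
  rw [Finset.sum_add_distrib, Finset.sum_add_distrib, Finset.sum_const, Finset.sum_const,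
    Finset.card_univ, Fintype.card_units, smul_eq_mul, smul_eq_mul, ← Finset.mul_sum, hroots,
    mul_comm (Fintype.card k) (Fintype.card k - 1)] at h
  linarith [mul_comm (Fintype.card k ^ 2) (Fintype.card k - 1)]

/-- **The invertible matrices with eigenvalue one.** -/
theorem card_fixing :
    Nat.card {M : GL (Fin 2) k // M.val.trace = M.val.det + 1} + 2 * Fintype.card k =
      Fintype.card k ^ 3 := by
  rw [Nat.card_congr (glEquiv fun d : k => d + 1), Nat.card_sigma]
  have hroots : ∀ d : k, #{a : k | a * a - (d + 1) * a + d = 0} = if d = 1 then 1 else 2 :=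
    fun d => by
    have e : ({a : k | a * a - (d + 1) * a + d = 0} : Finset k) = {1, d} := by
      ext a
      simp only [mem_filter, mem_univ, true_and, mem_insert, mem_singleton]
      rw [show a * a - (d + 1) * a + d = (a - 1) * (a - d) by ring, mul_eq_zero, sub_eq_zero,
        sub_eq_zero]
    rw [e]
    split_ifs with h
    · simp [h]
    · exact Finset.card_pair (Ne.symm h)
  have h : ∑ d : kˣ, (Nat.card {M : Matrix (Fin 2) (Fin 2) k //
        M.trace = (d : k) + 1 ∧ M.det = d} + Fintype.card k) + Fintype.card k =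
      ∑ d : kˣ, (Fintype.card k ^ 2 + Fintype.card k * 2) := by
    rw [Finset.sum_congr rfl fun (d : kˣ) _ =>
        (card_trace_det ((d : k) + 1) (d : k)).trans (by rw [hroots]),
      ← Finset.sum_erase_add _ _ (mem_univ (1 : kˣ)), if_pos Units.val_one, add_assoc,
      ← Finset.sum_erase_add (univ : Finset kˣ) (fun _ => Fintype.card k ^ 2 + Fintype.card k * 2)
        (mem_univ (1 : kˣ))]
    congr 1
    · exact Finset.sum_congr rfl fun d hd => by
        rw [if_neg fun h : (d : k) = 1 =>
          Finset.ne_of_mem_erase hd (Units.ext (h.trans Units.val_one.symm))]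
    · ring
  rw [Finset.sum_add_distrib, Finset.sum_const, Finset.sum_const, Finset.card_univ,
    Fintype.card_units, smul_eq_mul, smul_eq_mul] at h
  obtain ⟨m, hm⟩ := Nat.exists_eq_add_of_le' (Fintype.card_pos (α := k))
  rw [hm, Nat.add_sub_cancel] at h
  rw [hm]
  linarith

/-- The order of `GL₂`. -/
theorem card_gl2 : Nat.card (GL (Fin 2) k) =
    (Fintype.card k ^ 2 - 1) * (Fintype.card k ^ 2 - Fintype.card k) := by
  rw [Matrix.card_GL_field]
  simp [Fin.prod_univ_two]

end FA.TraceDist

end
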